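/-
Project R, slice R5 (counting), helper26.
(N1) The number of unimodular pairs modulo `N` is `φ(N) * ψ(N)`.
-/
import Mathlib
import Fermat.Prelude.Def_ModularCurve_GenusNumerics

namespace Fermat.Agent.S24.Counting.Card

open ModularCurve

/-- The number of unimodular pairs modulo `N`. -/
noncomputable def primCount (N : ℕ) : ℕ :=
  Nat.card {v : ZMod N × ZMod N // IsCoprime v.1 v.2}

theorem isCoprime_prod_iff {S T : Type*} [CommSemiring S] [CommSemiring T] (a b : S × T) :
    IsCoprime a b ↔ IsCoprime a.1 b.1 ∧ IsCoprime a.2 b.2 := by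
  constructor
  · rintro ⟨u, v, h⟩
    exact ⟨⟨u.1, v.1, by simpa using congrArg Prod.fst h⟩,
      ⟨u.2, v.2, by simpa using congrArg Prod.snd h⟩⟩
  · rintro ⟨⟨u1, v1, h1⟩, ⟨u2, v2, h2⟩⟩
    exact ⟨(u1, u2), (v1, v2), by ext <;> simpa⟩

theorem isCoprime_ringEquiv_iff {R S : Type*} [CommSemiring R] [CommSemiring S] (e : R ≃+* S)
    (x y : R) : IsCoprime (e x) (e y) ↔ IsCoprime x y :=
  ⟨fun h => by simpa using h.map e.symm.toRingHom, fun h => h.map e.toRingHom⟩

theorem primCount_mul {m n : ℕ} (h : m.Coprime n) :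
    primCount (m * n) = primCount m * primCount n := by
  unfold primCount
  rw [← Nat.card_prod]
  apply Nat.card_congr
  let e := ZMod.chineseRemainder h
  let E : (ZMod (m * n) × ZMod (m * n)) ≃ (ZMod m × ZMod m) × (ZMod n × ZMod n) :=
    (e.toEquiv.prodCongr e.toEquiv).trans (Equiv.prodProdProdComm _ _ _ _)
  refine (Equiv.subtypeEquiv E ?_).trans
    (Equiv.subtypeProdEquivProd (p := fun v : ZMod m × ZMod m => IsCoprime v.1 v.2)
      (q := fun v : ZMod n × ZMod n => IsCoprime v.1 v.2))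
  intro v
  rw [← isCoprime_ringEquiv_iff e, isCoprime_prod_iff]
  rfl

theorem primCount_one : primCount 1 = 1 := by
  unfold primCount
  rw [Nat.card_eq_one_iff_unique]
  refine ⟨⟨fun a b => Subsingleton.elim _ _⟩, ⟨⟨(0, 0), ?_⟩⟩⟩
  exact ⟨1, 0, Subsingleton.elim _ _⟩

theorem primCount_zero : primCount 0 = 0 := by
  unfold primCount
  have : Infinite {v : ZMod 0 × ZMod 0 // IsCoprime v.1 v.2} := by
    refine Infinite.of_injective (fun n : ℕ => ⟨((1 : ℤ), (n : ℤ)), isCoprime_one_left⟩) ?_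
    intro a b hab
    have h2 : ((a : ℤ) : ZMod 0) = ((b : ℤ) : ZMod 0) := congrArg (fun v => v.1.2) hab
    exact Int.natCast_inj.mp h2
  exact Nat.card_eq_zero_of_infinite

section PrimePower

variable {p k : ℕ}

theorem isUnit_iff_castHom_ne_zero (hp : p.Prime) (hk : 0 < k) (x : ZMod (p ^ k)) :
    IsUnit x ↔ ZMod.castHom (dvd_pow_self p hk.ne') (ZMod p) x ≠ 0 := by
  have : NeZero (p ^ k) := ⟨pow_ne_zero _ hp.ne_zero⟩
  conv_lhs => rw [← ZMod.natCast_zmod_val x]
  conv_rhs => rw [← ZMod.natCast_zmod_val x]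
  rw [map_natCast, ZMod.isUnit_iff_coprime, Nat.coprime_pow_right_iff hk, Ne,
    ZMod.natCast_eq_zero_iff, Nat.coprime_comm, hp.coprime_iff_not_dvd]

theorem isCoprime_iff_isUnit_or (hp : p.Prime) (hk : 0 < k) (x y : ZMod (p ^ k)) :
    IsCoprime x y ↔ IsUnit x ∨ IsUnit y := by
  have : Fact p.Prime := ⟨hp⟩
  constructor
  · intro h
    have h' := h.map (ZMod.castHom (dvd_pow_self p hk.ne') (ZMod p))
    rw [isUnit_iff_castHom_ne_zero hp hk, isUnit_iff_castHom_ne_zero hp hk]
    by_contra hcon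
    rw [not_or, not_not, not_not] at hcon
    obtain ⟨u, v, huv⟩ := h'
    rw [hcon.1, hcon.2] at huv
    simp at huv
  · rintro (h | h)
    · obtain ⟨u, rfl⟩ := h
      exact ⟨↑u⁻¹, 0, by simp⟩
    · obtain ⟨u, rfl⟩ := h
      exact ⟨0, ↑u⁻¹, by simp⟩

theorem card_isUnit (n : ℕ) [NeZero n] :
    Nat.card {x : ZMod n // IsUnit x} = n.totient := by
  rw [← ZMod.card_units_eq_totient, ← Nat.card_eq_fintype_card]
  refine (Nat.card_congr (Equiv.ofBijective
    (fun u : (ZMod n)ˣ => (⟨(u : ZMod n), u.isUnit⟩ : {x : ZMod n // IsUnit x})) ⟨?_, ?_⟩)).symm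
  · intro a b hab
    exact Units.ext (congrArg Subtype.val hab)
  · rintro ⟨x, u, rfl⟩
    exact ⟨u, rfl⟩

theorem card_add_card_not {α : Type*} [Finite α] (P : α → Prop) :
    Nat.card {a // P a} + Nat.card {a // ¬ P a} = Nat.card α := by
  classical
  rw [← Nat.card_sum]
  exact Nat.card_congr (Equiv.sumCompl P)

theorem card_not_isUnit (hp : p.Prime) (hk : 0 < k) :
    Nat.card {x : ZMod (p ^ k) // ¬ IsUnit x} = p ^ (k - 1) := by
  have : NeZero (p ^ k) := ⟨pow_ne_zero _ hp.ne_zero⟩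
  have h1 := card_isUnit (p ^ k)
  have h2 := card_add_card_not (fun x : ZMod (p ^ k) => IsUnit x)
  rw [h1, Nat.card_zmod, Nat.totient_prime_pow hp hk] at h2
  obtain ⟨j, rfl⟩ : ∃ j, k = j + 1 := ⟨k - 1, by omega⟩
  obtain ⟨q, rfl⟩ : ∃ q, p = q + 1 := ⟨p - 1, by have := hp.pos; omega⟩
  simp only [Nat.add_sub_cancel] at h2 ⊢
  have h3 : (q + 1) ^ (j + 1) = (q + 1) ^ j * q + (q + 1) ^ j := by ring
  omega

theorem primCount_prime_pow (hp : p.Prime) (hk : 0 < k) :
    primCount (p ^ k) + (p ^ (k - 1)) ^ 2 = (p ^ k) ^ 2 := by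
  have : NeZero (p ^ k) := ⟨pow_ne_zero _ hp.ne_zero⟩
  unfold primCount
  have h1 := card_add_card_not (fun v : ZMod (p ^ k) × ZMod (p ^ k) => IsCoprime v.1 v.2)
  rw [Nat.card_prod, Nat.card_zmod] at h1
  have h2 : Nat.card {v : ZMod (p ^ k) × ZMod (p ^ k) // ¬ IsCoprime v.1 v.2} =
      (p ^ (k - 1)) ^ 2 := by
    rw [sq, ← card_not_isUnit hp hk, ← Nat.card_prod]
    refine Nat.card_congr ((Equiv.subtypeEquivRight ?_).trans
      (Equiv.subtypeProdEquivProd (p := fun x : ZMod (p ^ k) => ¬ IsUnit x)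
        (q := fun x : ZMod (p ^ k) => ¬ IsUnit x)))
    intro v
    rw [isCoprime_iff_isUnit_or hp hk, not_or]
  rw [h2] at h1
  rw [h1, sq]

end PrimePower

section Psi

open ArithmeticFunction

/-- The indicator function of squarefree numbers. -/
noncomputable def sqfInd : ArithmeticFunction ℕ :=
  ⟨fun d => if Squarefree d then 1 else 0, by simp⟩

theorem sqfInd_apply (d : ℕ) : sqfInd d = if Squarefree d then 1 else 0 := rfl

theorem isMultiplicative_sqfInd : sqfInd.IsMultiplicative := by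
  refine ⟨by simp [sqfInd_apply], ?_⟩
  intro m n hmn
  simp only [sqfInd_apply, Nat.squarefree_mul hmn]
  by_cases hm : Squarefree m <;> by_cases hn : Squarefree n <;> simp [hm, hn]

theorem dedekindPsi_eq (N : ℕ) : dedekindPsi N = (sqfInd * ArithmeticFunction.id) N := by
  rw [ArithmeticFunction.mul_apply, Nat.sum_divisorsAntidiagonal
    (f := fun a b => sqfInd a * ArithmeticFunction.id b), dedekindPsi, Finset.sum_filter]
  refine Finset.sum_congr rfl fun d _ => ?_
  rw [sqfInd_apply, ArithmeticFunction.id_apply]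
  split_ifs <;> simp

theorem dedekindPsi_mul {m n : ℕ} (h : m.Coprime n) :
    dedekindPsi (m * n) = dedekindPsi m * dedekindPsi n := by
  rw [dedekindPsi_eq, dedekindPsi_eq, dedekindPsi_eq]
  exact (isMultiplicative_sqfInd.mul isMultiplicative_id).map_mul_of_coprime h

theorem dedekindPsi_prime_pow {p k : ℕ} (hp : p.Prime) (hk : 0 < k) :
    dedekindPsi (p ^ k) = p ^ k + p ^ (k - 1) := by
  obtain ⟨j, rfl⟩ : ∃ j, k = j + 1 := ⟨k - 1, by omega⟩
  rw [dedekindPsi, Nat.divisors_prime_pow hp, Finset.filter_map, Finset.sum_map]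
  simp only [Function.Embedding.coeFn_mk, Nat.add_sub_cancel]
  have hfil : (Finset.range (j + 1 + 1)).filter (fun i => Squarefree (p ^ i)) = {0, 1} := by
    ext i
    simp only [Finset.mem_filter, Finset.mem_range, Finset.mem_insert, Finset.mem_singleton]
    constructor
    · rintro ⟨_, hsq⟩
      by_contra hne
      have hi : 2 ≤ i := by omega
      have : p * p ∣ p ^ i := by
        rw [← sq]
        exact pow_dvd_pow p hi
      exact hp.not_isUnit (hsq p this)
    · rintro (rfl | rfl)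
      · exact ⟨by omega, by simp⟩
      · exact ⟨by omega, by simpa using hp.squarefree⟩
  have hfil' : (Finset.range (j + 1 + 1)).filter
      ((fun d => Squarefree d) ∘ fun i => p ^ i) = {0, 1} := hfil
  rw [hfil', Finset.sum_pair (by norm_num)]
  simp only [pow_zero, Nat.div_one, pow_one]
  congr 1
  rw [pow_succ, Nat.mul_div_cancel _ hp.pos]

end Psi

/-- **(N1)** The number of unimodular pairs modulo `N` is `φ(N) * ψ(N)`. -/
theorem primCount_eq (N : ℕ) : primCount N = N.totient * dedekindPsi N := by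
  induction N using Nat.recOnPosPrimePosCoprime with
  | prime_pow p k hp hk =>
    have h1 := primCount_prime_pow hp hk
    rw [dedekindPsi_prime_pow hp hk, Nat.totient_prime_pow hp hk]
    obtain ⟨j, rfl⟩ : ∃ j, k = j + 1 := ⟨k - 1, by omega⟩
    obtain ⟨q, rfl⟩ : ∃ q, p = q + 1 := ⟨p - 1, by have := hp.pos; omega⟩
    simp only [Nat.add_sub_cancel] at h1 ⊢
    have h2 : (q + 1) ^ j * q * ((q + 1) ^ (j + 1) + (q + 1) ^ j) + ((q + 1) ^ j) ^ 2 =
        ((q + 1) ^ (j + 1)) ^ 2 := by ring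
    omega
  | zero => simp [primCount_zero]
  | one => simp [primCount_one, dedekindPsi_one]
  | coprime a b _ _ hab iha ihb =>
    rw [primCount_mul hab, dedekindPsi_mul hab, Nat.totient_mul hab, iha, ihb]
    ring

/-- **(N1)**, unfolded. -/
theorem card_prim (N : ℕ) :
    Nat.card {v : ZMod N × ZMod N // IsCoprime v.1 v.2} = N.totient * dedekindPsi N :=
  primCount_eq N

end Fermat.Agent.S24.Counting.Card
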