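/-
Project R, slice R5 (counting), helper26.
(N2) The cusp count: unimodular pairs modulo `N`, up to units and `(x, y) ↦ (x + k y, y)`,
are counted by `cuspCount N = ∑ d ∣ N, φ(gcd d (N / d))`.
-/
import Mathlib
import Fermat.Prelude.Def_ModularCurve_GenusNumerics

namespace Fermat.Agent.S24.Counting.Cusps

open ModularCurve

variable {N : ℕ}

/-- An element of `ZMod N` reduces to zero modulo `d ∣ N` iff it is a multiple of `d`. -/
theorem castHom_eq_zero_iff [NeZero N] {d : ℕ} (hd : d ∣ N) (z : ZMod N) :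
    ZMod.castHom hd (ZMod d) z = 0 ↔ ∃ k : ZMod N, z = k * (d : ZMod N) := by
  constructor
  · intro h
    have hz := ZMod.natCast_zmod_val z
    rw [← hz, map_natCast, ZMod.natCast_eq_zero_iff] at h
    obtain ⟨m, hm⟩ := h
    refine ⟨(m : ZMod N), ?_⟩
    rw [← hz, hm]
    push_cast
    ring
  · rintro ⟨k, rfl⟩
    rw [map_mul, map_natCast, ZMod.natCast_self, mul_zero]

/-- `z * d = 0` in `ZMod N` iff `z` reduces to zero modulo `N / d`. -/
theorem mul_natCast_eq_zero_iff [NeZero N] {d e : ℕ} (hde : d * e = N) (z : ZMod N) :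
    z * (d : ZMod N) = 0 ↔ ZMod.castHom (Dvd.intro_left d hde) (ZMod e) z = 0 := by
  have hd0 : d ≠ 0 := by
    rintro rfl
    exact NeZero.ne N (by simpa using hde.symm)
  constructor
  · intro h
    have hz := ZMod.natCast_zmod_val z
    rw [← hz, map_natCast, ZMod.natCast_eq_zero_iff]
    rw [← hz, ← Nat.cast_mul, ZMod.natCast_eq_zero_iff] at h
    obtain ⟨m, hm⟩ := h
    have hm' : z.val * d = e * m * d := by rw [hm, ← hde]; ring
    exact ⟨m, Nat.eq_of_mul_eq_mul_right (Nat.pos_of_ne_zero hd0) hm'⟩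
  · intro h
    obtain ⟨k, hk⟩ := (castHom_eq_zero_iff _ z).mp h
    rw [hk, mul_assoc, ← Nat.cast_mul, mul_comm e d, hde, ZMod.natCast_self, mul_zero]

/-- Divisors of `N` that are associated in `ZMod N` are equal. -/
theorem divisor_eq_of_unit_mul [NeZero N] {d d' : ℕ} (hd : d ∣ N) (hd' : d' ∣ N)
    (u : (ZMod N)ˣ) (h : (d' : ZMod N) = u * (d : ZMod N)) : d = d' := by
  have key : ∀ {a b : ℕ}, a ∣ N → ∀ w : ZMod N, (b : ZMod N) = w * (a : ZMod N) → a ∣ b := by
    intro a b ha w hw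
    have hw' := ZMod.natCast_zmod_val w
    rw [← hw', ← Nat.cast_mul, ZMod.natCast_eq_natCast_iff] at hw
    exact (hw.dvd_iff ha).mpr (Dvd.intro_left _ rfl)
  refine Nat.dvd_antisymm (key hd _ h) (key hd' (↑u⁻¹ : ZMod N) ?_)
  rw [h, ← mul_assoc, Units.inv_mul, one_mul]

/-- Generalised Chinese remainder theorem for units: a unit `t` modulo `N = d * e` which is
`1` modulo `gcd d e` can be replaced, modulo `d`, by a unit which is `1` modulo `e`. -/
theorem exists_unit_crt [NeZero N] {d e : ℕ} (hde : d * e = N) (hd : d ∣ N) (he : e ∣ N)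
    (hg : Nat.gcd d e ∣ N) (t : (ZMod N)ˣ)
    (ht : ZMod.castHom hg (ZMod (Nat.gcd d e)) (t : ZMod N) = 1) :
    ∃ u : (ZMod N)ˣ, ZMod.castHom hd (ZMod d) (u : ZMod N) = ZMod.castHom hd (ZMod d) (t : ZMod N) ∧
      ZMod.castHom he (ZMod e) (u : ZMod N) = 1 := by
  have hta := ZMod.natCast_zmod_val (t : ZMod N)
  set a := (t : ZMod N).val with ha
  have h1 : a ≡ 1 [MOD Nat.gcd d e] := by
    rw [← hta, map_natCast] at ht
    rw [← ZMod.natCast_eq_natCast_iff, ht, Nat.cast_one]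
  obtain ⟨k, hk1, hk2⟩ := Nat.chineseRemainder' h1
  have haN : Nat.Coprime a N := ZMod.val_coe_unit_coprime t
  have hkd : Nat.Coprime k d := by
    rw [Nat.Coprime, hk1.gcd_eq]
    exact Nat.Coprime.coprime_dvd_right hd haN
  have hke : Nat.Coprime k e := by
    rw [Nat.Coprime, hk2.gcd_eq]
    exact Nat.gcd_one_left e
  have hkN : Nat.Coprime k N := by
    rw [← hde]
    exact Nat.Coprime.mul_right hkd hke
  refine ⟨ZMod.unitOfCoprime k hkN, ?_, ?_⟩
  · rw [ZMod.coe_unitOfCoprime, map_natCast, ← hta, map_natCast, ZMod.natCast_eq_natCast_iff]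
    exact hk1
  · rw [ZMod.coe_unitOfCoprime, map_natCast, ← Nat.cast_one, ZMod.natCast_eq_natCast_iff]
    exact hk2

/-- Unimodular pairs modulo `N`. -/
abbrev Prim (N : ℕ) : Type := {v : ZMod N × ZMod N // IsCoprime v.1 v.2}

/-- The equivalence relation on unimodular pairs generated by units and by
`T : (x, y) ↦ (x + y, y)`; its classes are the cusps of `Γ₀(N)`. -/
def cuspRel (N : ℕ) : Setoid (Prim N) where
  r v w := ∃ (u : (ZMod N)ˣ) (k : ZMod N),
    w.1.1 = u * (v.1.1 + k * v.1.2) ∧ w.1.2 = u * v.1.2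
  iseqv := by
    refine ⟨fun v => ⟨1, 0, by simp, by simp⟩, ?_, ?_⟩
    · rintro v w ⟨u, k, h1, h2⟩
      have hu : (↑u⁻¹ : ZMod N) * (u : ZMod N) = 1 := Units.inv_mul u
      refine ⟨u⁻¹, -k, ?_, ?_⟩
      · rw [h1, h2]
        linear_combination (-v.1.1) * hu
      · rw [h2]
        linear_combination (-v.1.2) * hu
    · rintro v w z ⟨u, k, h1, h2⟩ ⟨u', k', h1', h2'⟩
      refine ⟨u' * u, k + k', ?_, ?_⟩
      · rw [h1', h1, h2]
        push_cast
        ring
      · rw [h2', h2]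
        push_cast
        ring

theorem cuspRel_iff (v w : Prim N) : (cuspRel N).r v w ↔ ∃ (u : (ZMod N)ˣ) (k : ZMod N),
    w.1.1 = u * (v.1.1 + k * v.1.2) ∧ w.1.2 = u * v.1.2 := Iff.rfl

/-- The normal form `(w, d)` with `w` a unit. -/
def nf (N d : ℕ) (w : (ZMod N)ˣ) : Prim N :=
  ⟨((w : ZMod N), (d : ZMod N)), ⟨(↑w⁻¹ : ZMod N), 0, by simp⟩⟩

@[simp] theorem nf_fst (d : ℕ) (w : (ZMod N)ˣ) : (nf N d w).1.1 = (w : ZMod N) := rfl
@[simp] theorem nf_snd (d : ℕ) (w : (ZMod N)ˣ) : (nf N d w).1.2 = (d : ZMod N) := rfl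

/-- Every unimodular pair is equivalent to a normal form. -/
theorem exists_nf [NeZero N] (v : Prim N) :
    ∃ d : ℕ, d ∣ N ∧ ∃ w : (ZMod N)ˣ, (cuspRel N).r v (nf N d w) := by
  obtain ⟨⟨x, y⟩, hxy⟩ := v
  obtain ⟨d, hd, u₀, hu₀, hy⟩ := ZMod.eq_unit_mul_divisor y
  obtain ⟨u, rfl⟩ := hu₀
  refine ⟨d, hd, ?_⟩
  have hu : (↑u⁻¹ : ZMod N) * (u : ZMod N) = 1 := Units.inv_mul u
  -- `u⁻¹ x` is a unit modulo `d`
  have hunit : IsUnit (ZMod.castHom hd (ZMod d) (↑u⁻¹ * x)) := by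
    obtain ⟨a, b, hab⟩ := hxy
    have h := congrArg (ZMod.castHom hd (ZMod d)) hab
    simp only [hy, map_add, map_mul, map_natCast, ZMod.natCast_self, mul_zero, add_zero,
      map_one] at h
    rw [map_mul]
    refine IsUnit.mul ((Units.isUnit u⁻¹).map _) ?_
    exact IsUnit.of_mul_eq_one _ (by rw [mul_comm]; exact h)
  obtain ⟨w, hw⟩ := ZMod.unitsMap_surjective hd hunit.unit
  have hw' : ZMod.castHom hd (ZMod d) (w : ZMod N) = ZMod.castHom hd (ZMod d) (↑u⁻¹ * x) := by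
    have := congrArg Units.val hw
    rwa [IsUnit.unit_spec] at this
  have h0 : ZMod.castHom hd (ZMod d) ((w : ZMod N) - ↑u⁻¹ * x) = 0 := by
    rw [map_sub, hw', sub_self]
  obtain ⟨k, hk⟩ := (castHom_eq_zero_iff hd _).mp h0
  refine ⟨w, u⁻¹, k, ?_, ?_⟩
  · simp only [nf_fst, hy]
    linear_combination hk - k * (d : ZMod N) * hu
  · simp only [nf_snd, hy]
    linear_combination (-(d : ZMod N)) * hu

theorem gcd_div_dvd {d : ℕ} (hd : d ∣ N) : Nat.gcd d (N / d) ∣ N :=
  (Nat.gcd_dvd_left _ _).trans hd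

/-- Normal forms are equivalent iff they have the same divisor and the units agree modulo
`gcd d (N / d)`. -/
theorem nf_rel_iff [NeZero N] {d d' : ℕ} (hd : d ∣ N) (hd' : d' ∣ N) (w w' : (ZMod N)ˣ) :
    (cuspRel N).r (nf N d w) (nf N d' w') ↔
      d = d' ∧ ZMod.castHom (gcd_div_dvd hd) (ZMod (Nat.gcd d (N / d))) (w : ZMod N) =
        ZMod.castHom (gcd_div_dvd hd) (ZMod (Nat.gcd d (N / d))) (w' : ZMod N) := by
  have hde : d * (N / d) = N := Nat.mul_div_cancel' hd
  have he : N / d ∣ N := Dvd.intro_left d hde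
  have hgd : (Nat.gcd d (N / d) : ℕ) ∣ d := Nat.gcd_dvd_left _ _
  have hge : (Nat.gcd d (N / d) : ℕ) ∣ N / d := Nat.gcd_dvd_right _ _
  constructor
  · rintro ⟨u, k, h1, h2⟩
    simp only [nf_fst, nf_snd] at h1 h2
    have hdd : d = d' := divisor_eq_of_unit_mul hd hd' u h2
    subst hdd
    refine ⟨rfl, ?_⟩
    -- `u ≡ 1` modulo `N / d`
    have h3 : ((u : ZMod N) - 1) * (d : ZMod N) = 0 := by
      linear_combination -h2
    obtain ⟨k', hk'⟩ := (castHom_eq_zero_iff he _).mp ((mul_natCast_eq_zero_iff hde _).mp h3)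
    have hu1 : (u : ZMod N) = 1 + k' * ((N / d : ℕ) : ZMod N) := by
      linear_combination hk'
    have hz1 : ((d : ℕ) : ZMod (Nat.gcd d (N / d))) = 0 :=
      (ZMod.natCast_eq_zero_iff _ _).mpr hgd
    have hz2 : ((N / d : ℕ) : ZMod (Nat.gcd d (N / d))) = 0 :=
      (ZMod.natCast_eq_zero_iff _ _).mpr hge
    rw [h1, hu1]
    simp only [map_add, map_mul, map_one, map_natCast, hz1, hz2, mul_zero, add_zero, one_mul]
  · rintro ⟨rfl, h⟩
    -- `t = w' / w` is `1` modulo `g`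
    have hw : (↑w⁻¹ : ZMod N) * (w : ZMod N) = 1 := Units.inv_mul w
    have ht : ZMod.castHom (gcd_div_dvd hd) (ZMod (Nat.gcd d (N / d)))
        ((w' * w⁻¹ : (ZMod N)ˣ) : ZMod N) = 1 := by
      rw [Units.val_mul, map_mul, ← h, ← map_mul, Units.mul_inv, map_one]
    obtain ⟨u, hu1, hu2⟩ := exists_unit_crt hde hd he (gcd_div_dvd hd) (w' * w⁻¹) ht
    have hud : (u : ZMod N) * (d : ZMod N) = (d : ZMod N) := by
      have h0 : ZMod.castHom he (ZMod (N / d)) ((u : ZMod N) - 1) = 0 := by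
        rw [map_sub, hu2, map_one, sub_self]
      have := (mul_natCast_eq_zero_iff hde _).mpr h0
      linear_combination this
    have h0 : ZMod.castHom hd (ZMod d) ((w' : ZMod N) - u * w) = 0 := by
      rw [map_sub, map_mul, hu1, ← map_mul, ← map_sub, Units.val_mul]
      have : (w' : ZMod N) - ↑w' * ↑w⁻¹ * ↑w = 0 := by linear_combination (-(w' : ZMod N)) * hw
      rw [this, map_zero]
    obtain ⟨k', hk'⟩ := (castHom_eq_zero_iff hd _).mp h0
    have hu : (↑u⁻¹ : ZMod N) * (u : ZMod N) = 1 := Units.inv_mul u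
    refine ⟨u, ↑u⁻¹ * k', ?_, ?_⟩
    · simp only [nf_fst, nf_snd]
      linear_combination hk' - k' * (d : ZMod N) * hu
    · simp only [nf_snd]
      exact hud.symm

/-- The index type of cusps: a divisor `d` of `N` and a unit modulo `gcd d (N / d)`. -/
abbrev CuspIndex (N : ℕ) : Type :=
  Σ d : {d : ℕ // d ∈ N.divisors}, (ZMod (Nat.gcd d.1 (N / d.1)))ˣ

theorem card_cuspIndex [NeZero N] : Nat.card (CuspIndex N) = cuspCount N := by
  rw [Nat.card_sigma, cuspCount, ← Finset.sum_coe_sort N.divisors]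
  refine Finset.sum_congr rfl fun d _ => ?_
  have hd0 : 0 < d.1 := Nat.pos_of_mem_divisors d.2
  have : NeZero (Nat.gcd d.1 (N / d.1)) := ⟨(Nat.gcd_pos_of_pos_left _ hd0).ne'⟩
  rw [Nat.card_eq_fintype_card, ZMod.card_units_eq_totient]

/-- The cusp attached to an index. -/
noncomputable def cuspOfIndex (N : ℕ) [NeZero N] (i : CuspIndex N) : Quotient (cuspRel N) :=
  Quotient.mk _ (nf N i.1.1 (Function.surjInv
    (ZMod.unitsMap_surjective (gcd_div_dvd (Nat.dvd_of_mem_divisors i.1.2))) i.2))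

theorem cuspOfIndex_bijective (N : ℕ) [NeZero N] : Function.Bijective (cuspOfIndex N) := by
  constructor
  · rintro ⟨⟨d, hd⟩, r⟩ ⟨⟨d', hd'⟩, r'⟩ h
    have h' := Quotient.exact h
    obtain ⟨hdd, h2⟩ := (nf_rel_iff (Nat.dvd_of_mem_divisors hd) (Nat.dvd_of_mem_divisors hd')
      _ _).mp h'
    subst hdd
    congr 1
    have e1 := Function.surjInv_eq
      (ZMod.unitsMap_surjective (gcd_div_dvd (Nat.dvd_of_mem_divisors hd))) r
    have e2 := Function.surjInv_eq
      (ZMod.unitsMap_surjective (gcd_div_dvd (Nat.dvd_of_mem_divisors hd))) r'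
    rw [← e1, ← e2]
    exact Units.ext h2
  · intro q
    induction q using Quotient.inductionOn with
    | _ v =>
      obtain ⟨d, hd, w, hw⟩ := exists_nf v
      have hdm : d ∈ N.divisors := Nat.mem_divisors.mpr ⟨hd, NeZero.ne N⟩
      refine ⟨⟨⟨d, hdm⟩, ZMod.unitsMap (gcd_div_dvd hd) w⟩, ?_⟩
      refine (Quotient.sound ?_).trans (Quotient.sound hw).symm
      refine (nf_rel_iff hd hd _ _).mpr ⟨rfl, ?_⟩
      have e1 := Function.surjInv_eq (ZMod.unitsMap_surjective (gcd_div_dvd hd))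
        (ZMod.unitsMap (gcd_div_dvd hd) w)
      exact congrArg Units.val e1

/-- **(N2)** The number of cusps: classes of unimodular pairs modulo units and
`(x, y) ↦ (x + k y, y)` are counted by `cuspCount N`. -/
theorem card_cusps (N : ℕ) [NeZero N] : Nat.card (Quotient (cuspRel N)) = cuspCount N := by
  rw [← card_cuspIndex]
  exact (Nat.card_congr (Equiv.ofBijective _ (cuspOfIndex_bijective N))).symm

end Fermat.Agent.S24.Counting.Cusps
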