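/-
Project R, slice R5 (counting), helper26.
Coprime lifting from `ZMod N` to the integers, and the resulting surjectivity of
first columns of `SL(2, ℤ)` onto unimodular pairs modulo `N`.
-/
import Mathlib

open scoped MatrixGroups

namespace Fermat.Agent.S24.Counting.Lift

/-- Coprime lifting: a primitive pair modulo `N` lifts to a coprime pair of integers. -/
theorem exists_coprime_lift (N : ℕ) [NeZero N] (x y : ZMod N) (h : IsCoprime x y) :
    ∃ a c : ℤ, (a : ZMod N) = x ∧ (c : ZMod N) = y ∧ IsCoprime a c := by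
  have hN : 0 < N := Nat.pos_of_ne_zero (NeZero.ne N)
  -- a nonzero lift of `x`
  obtain ⟨a, ha, ha0⟩ : ∃ a : ℤ, (a : ZMod N) = x ∧ a ≠ 0 := by
    by_cases hx : (x.val : ℤ) = 0
    · refine ⟨N, ?_, by exact_mod_cast hN.ne'⟩
      have : x = 0 := by
        have h0 : x.val = 0 := by exact_mod_cast hx
        exact (ZMod.val_eq_zero x).mp h0
      simp [this]
    · exact ⟨x.val, by simp, hx⟩
  set c₀ : ℤ := (y.val : ℤ) with hc₀
  have hc₀y : (c₀ : ZMod N) = y := by simp [hc₀]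
  -- the correction
  set t : ℕ := ∏ p ∈ a.natAbs.primeFactors.filter (fun p => ¬ p ∣ N ∧ ¬ (p : ℤ) ∣ c₀), p with ht
  refine ⟨a, c₀ + N * t, ha, by simp [hc₀y], ?_⟩
  rw [Int.isCoprime_iff_gcd_eq_one]
  by_contra hne
  obtain ⟨p, hp, hpd⟩ := Nat.exists_prime_and_dvd hne
  have hpa : (p : ℤ) ∣ a := by
    have : p ∣ Int.gcd a (c₀ + N * t) := hpd
    exact Int.natCast_dvd.mpr (this.trans (Int.gcd_dvd_natAbs_left _ _))
  have hpc : (p : ℤ) ∣ c₀ + N * t := by
    have : p ∣ Int.gcd a (c₀ + N * t) := hpd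
    exact Int.natCast_dvd.mpr (this.trans (Int.gcd_dvd_natAbs_right _ _))
  have hpmem : p ∈ a.natAbs.primeFactors := by
    rw [Nat.mem_primeFactors]
    exact ⟨hp, Int.natCast_dvd.mp hpa, by simpa using ha0⟩
  by_cases hpN : p ∣ N
  · -- then `p ∣ c₀`, contradicting primitivity modulo `N`
    have hpc₀ : (p : ℤ) ∣ c₀ := by
      have : (p : ℤ) ∣ N * t := Dvd.dvd.mul_right (by exact_mod_cast hpN) _
      exact (Int.dvd_add_left this).mp hpc
    obtain ⟨s, r, hsr⟩ := h
    -- reduce modulo `p`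
    have : Fact p.Prime := ⟨hp⟩
    have hcast : ∀ z : ℤ, (p : ℤ) ∣ z → ZMod.castHom hpN (ZMod p) (z : ZMod N) = 0 := by
      intro z hz
      rw [map_intCast]
      exact (ZMod.intCast_zmod_eq_zero_iff_dvd z p).mpr hz
    have h1 := congrArg (ZMod.castHom hpN (ZMod p)) hsr
    rw [map_add, map_mul, map_mul, map_one, ← ha, ← hc₀y] at h1
    rw [hcast a hpa, hcast c₀ hpc₀, mul_zero, mul_zero, add_zero] at h1
    exact zero_ne_one h1
  · by_cases hpc₀ : (p : ℤ) ∣ c₀
    · -- then `p ∣ t`, but `t` is a product of primes not dividing `c₀`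
      have hpNt : (p : ℤ) ∣ N * t := (Int.dvd_add_right hpc₀).mp hpc
      have hpt : p ∣ t := by
        have : p ∣ N * t := by exact_mod_cast hpNt
        exact (hp.dvd_mul.mp this).resolve_left hpN
      rw [ht, Prime.dvd_finsetProd_iff hp.prime] at hpt
      obtain ⟨q, hq, hpq⟩ := hpt
      rw [Finset.mem_filter, Nat.mem_primeFactors] at hq
      have : p = q := (Nat.prime_dvd_prime_iff_eq hp hq.1.1).mp hpq
      subst this
      exact hq.2.2 hpc₀
    · -- then `p ∣ t`, so `p ∣ c₀`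
      have hpt : p ∣ t := by
        rw [ht]
        exact Finset.dvd_prod_of_mem _ (Finset.mem_filter.mpr ⟨hpmem, hpN, hpc₀⟩)
      have : (p : ℤ) ∣ N * t := Dvd.dvd.mul_left (by exact_mod_cast hpt) _
      exact hpc₀ ((Int.dvd_add_left this).mp hpc)


/-- Every unimodular pair modulo `N` is the reduction of the first column of a matrix in
`SL(2, ℤ)`. -/
theorem exists_SL2_col_mod (N : ℕ) [NeZero N] (x y : ZMod N) (h : IsCoprime x y) :
    ∃ g : SL(2, ℤ), ((g 0 0 : ℤ) : ZMod N) = x ∧ ((g 1 0 : ℤ) : ZMod N) = y := by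
  obtain ⟨a, c, ha, hc, hac⟩ := exists_coprime_lift N x y h
  obtain ⟨g, hg0, hg1⟩ := hac.exists_SL2_col 0
  exact ⟨g, by rw [hg0, ha], by rw [hg1, hc]⟩

/-- The first column of a matrix in `SL(2, ℤ)` is unimodular modulo every `N`. -/
theorem isCoprime_col_mod (N : ℕ) (g : SL(2, ℤ)) :
    IsCoprime ((g 0 0 : ℤ) : ZMod N) ((g 1 0 : ℤ) : ZMod N) := by
  have hdet : g 0 0 * g 1 1 - g 0 1 * g 1 0 = 1 := by
    have := g.det_coe
    rwa [Matrix.det_fin_two] at this
  refine ⟨((g 1 1 : ℤ) : ZMod N), -((g 0 1 : ℤ) : ZMod N), ?_⟩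
  have := congrArg (Int.cast : ℤ → ZMod N) hdet
  push_cast at this
  linear_combination this

end Fermat.Agent.S24.Counting.Lift
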